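import Mathlib

/-!
# Row LT, tower T7, station C2.7 (cut-off integrals): ASSET, integrability of cut-off orbital
integrands -- the abstract form (helper194)

OFF-MAIN.  Mathlib only.  No hole, nothing assumed.

`G` a locally compact, second countable, Hausdorff group with a left invariant measure `μ` which
is finite on compact sets, `T` a subgroup with a left invariant measure `μT` which is positive on
the non-empty open sets, `β ≥ 0` a cut-off function (`∫_T β(t y) dμT(t) = 1` for all `y`).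

    lintegral_le_of_supp194 : for `C` compact there is `c < ∞` with `∫⁻ f dμ ≤ c` for all
        `0 ≤ f ≤ β` which vanish outside `T C`
    integrable_mul_cut194 : a bounded measurable `Ψ` which vanishes outside `T C`:
        `Ψ β` is integrable

NO commutativity, NO unimodularity: with `Θ(y) = μT{t : t⁻¹ y ∈ V C}` (`V` a compact
neighbourhood of `1`): `Θ ≥ μT{s : s⁻¹ ∈ V°} > 0` on `T C` (left invariance of `μT`) and
`∫ Θ β dμ = ∫_{V C} ∫_T β(t y) dμT(t) dμ(y) = μ(V C)` (Tonelli, left invariance of `μ`).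
-/

set_option autoImplicit false
set_option linter.unusedSectionVars false
set_option linter.style.haveILetI false

noncomputable section

namespace Fermat.Agent.LT.T7.H194

open MeasureTheory Set Topology
open scoped ENNReal Pointwise

section IntegAbs

variable {G : Type*} [Group G] [TopologicalSpace G] [IsTopologicalGroup G]
  [MeasurableSpace G] [BorelSpace G] [SecondCountableTopology G] [T2Space G]
  [LocallyCompactSpace G]
  (T : Subgroup G) [MeasurableSpace T] [BorelSpace T]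
  (μ : Measure G) [SFinite μ] [μ.IsMulLeftInvariant] [IsFiniteMeasureOnCompacts μ]
  (μT : Measure T) [SFinite μT] [μT.IsMulLeftInvariant] [μT.IsOpenPosMeasure]

/-- **The bound.** -/
theorem lintegral_le_of_supp194 {b : G → ℝ≥0∞} (hb : Measurable b)
    (hcut : ∀ y, ∫⁻ t : T, b ((t : G) * y) ∂μT ≤ 1) {C : Set G} (hC : IsCompact C) :
    ∃ c : ℝ≥0∞, c ≠ ∞ ∧ ∀ f : G → ℝ≥0∞,
      (∀ y, f y ≠ 0 → ∃ t ∈ T, ∃ x ∈ C, y = t * x) → (∀ y, f y ≤ b y) →
        ∫⁻ y, f y ∂μ ≤ c := by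
  obtain ⟨V, hVc, hV1⟩ := exists_compact_mem_nhds (1 : G)
  set C' : Set G := V * C with hC'
  have hC'c : IsCompact C' := hVc.mul hC
  have hC'm : MeasurableSet C' := hC'c.isClosed.measurableSet
  -- the open set `W₀`
  set W₀ : Set T := {s : T | ((s : G))⁻¹ ∈ interior V} with hW₀
  have hc0 : Continuous (fun s : T => ((s : G))⁻¹) := continuous_subtype_val.inv
  have hW₀o : IsOpen W₀ := isOpen_interior.preimage hc0
  have hW₀n : W₀.Nonempty := ⟨1, by
    show (((1 : T) : G))⁻¹ ∈ interior V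
    rw [Subgroup.coe_one, inv_one]
    exact mem_interior_iff_mem_nhds.2 hV1⟩
  have hm0 : μT W₀ ≠ 0 := (hW₀o.measure_pos μT hW₀n).ne'
  set m : ℝ≥0∞ := min (μT W₀) 1 with hm
  have hm_ne0 : m ≠ 0 := by
    rw [hm]
    intro h
    rcases min_eq_iff.1 h with h1 | h1
    · exact hm0 h1.1
    · exact one_ne_zero h1.1
  have hm_top : m ≠ ∞ := ne_top_of_le_ne_top ENNReal.one_ne_top (min_le_right _ _)
  -- the slices
  set I : G → ℝ≥0∞ := C'.indicator (fun _ => (1 : ℝ≥0∞)) with hI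
  have hIm : Measurable I := measurable_const.indicator hC'm
  set Θ : G → ℝ≥0∞ := fun y => ∫⁻ t : T, I (((t : G))⁻¹ * y) ∂μT with hΘ
  have hinvc : Continuous (fun p : G × T => ((p.2 : G))⁻¹ * p.1) :=
    ((continuous_subtype_val.comp continuous_snd).inv).mul continuous_fst
  have hmulc : Continuous (fun p : G × T => (p.2 : G) * p.1) :=
    (continuous_subtype_val.comp continuous_snd).mul continuous_fst
  -- the lower bound of `Θ` on `T C`
  have hlow : ∀ y : G, (∃ t ∈ T, ∃ x ∈ C, y = t * x) → m ≤ Θ y := by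
    rintro y ⟨t₀, ht₀, x, hx, rfl⟩
    have hsub : (fun t : T => (⟨t₀, ht₀⟩ : T)⁻¹ * t) ⁻¹' W₀
        ⊆ {t : T | ((t : G))⁻¹ * (t₀ * x) ∈ C'} := by
      intro t ht
      have h1 : ((((⟨t₀, ht₀⟩ : T)⁻¹ * t : T) : G))⁻¹ ∈ V := interior_subset ht
      have h2 : ((((⟨t₀, ht₀⟩ : T)⁻¹ * t : T) : G))⁻¹ = ((t : G))⁻¹ * t₀ := by
        rw [Subgroup.coe_mul, Subgroup.coe_inv, mul_inv_rev, inv_inv]
      rw [h2] at h1
      show ((t : G))⁻¹ * (t₀ * x) ∈ V * C
      rw [← mul_assoc]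
      exact Set.mul_mem_mul h1 hx
    have hc1 : Continuous (fun t : T => ((t : G))⁻¹ * (t₀ * x)) :=
      (continuous_subtype_val.inv).mul continuous_const
    have hmeas : MeasurableSet {t : T | ((t : G))⁻¹ * (t₀ * x) ∈ C'} :=
      hC'm.preimage hc1.measurable
    calc m ≤ μT W₀ := min_le_left _ _
      _ = μT ((fun t : T => (⟨t₀, ht₀⟩ : T)⁻¹ * t) ⁻¹' W₀) :=
          (measure_preimage_mul μT _ W₀).symm
      _ ≤ μT {t : T | ((t : G))⁻¹ * (t₀ * x) ∈ C'} := measure_mono hsub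
      _ = ∫⁻ t : T, I (((t : G))⁻¹ * (t₀ * x)) ∂μT := by
          rw [← lintegral_indicator_one hmeas]
          refine lintegral_congr fun t => ?_
          by_cases h : ((t : G))⁻¹ * (t₀ * x) ∈ C'
          · rw [indicator_of_mem (show t ∈ {t : T | ((t : G))⁻¹ * (t₀ * x) ∈ C'} from h),
              hI, indicator_of_mem h]
            rfl
          · rw [indicator_of_notMem (show t ∉ {t : T | ((t : G))⁻¹ * (t₀ * x) ∈ C'} from h),
              hI, indicator_of_notMem h]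
  -- Tonelli
  have hA : ∀ y, Θ y * b y = ∫⁻ t : T, I (((t : G))⁻¹ * y) * b y ∂μT := by
    intro y
    have hc1 : Continuous (fun t : T => ((t : G))⁻¹ * y) :=
      (continuous_subtype_val.inv).mul continuous_const
    have hm0' : Measurable (fun t : T => I (((t : G))⁻¹ * y)) := hIm.comp hc1.measurable
    rw [lintegral_mul_const _ hm0']
  have hm1 : Measurable (fun p : G × T => I (((p.2 : G))⁻¹ * p.1) * b p.1) :=
    (hIm.comp hinvc.measurable).mul (hb.comp measurable_fst)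
  have hB : ∫⁻ y, ∫⁻ t : T, I (((t : G))⁻¹ * y) * b y ∂μT ∂μ
      = ∫⁻ t : T, ∫⁻ y, I (((t : G))⁻¹ * y) * b y ∂μ ∂μT :=
    lintegral_lintegral_swap (f := fun y (t : T) => I (((t : G))⁻¹ * y) * b y)
      hm1.aemeasurable
  have hCt : ∀ t : T, ∫⁻ y, I (((t : G))⁻¹ * y) * b y ∂μ
      = ∫⁻ y, I y * b ((t : G) * y) ∂μ := by
    intro t
    rw [← lintegral_mul_left_eq_self (fun y => I (((t : G))⁻¹ * y) * b y) (t : G)]
    refine lintegral_congr fun y => ?_
    rw [inv_mul_cancel_left]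
  have hm2 : Measurable (fun p : G × T => I p.1 * b ((p.2 : G) * p.1)) :=
    (hIm.comp measurable_fst).mul (hb.comp hmulc.measurable)
  have hD : ∫⁻ t : T, ∫⁻ y, I y * b ((t : G) * y) ∂μ ∂μT
      = ∫⁻ y, ∫⁻ t : T, I y * b ((t : G) * y) ∂μT ∂μ :=
    (lintegral_lintegral_swap (f := fun y (t : T) => I y * b ((t : G) * y))
      hm2.aemeasurable).symm
  have hE : ∀ y, ∫⁻ t : T, I y * b ((t : G) * y) ∂μT ≤ I y := by
    intro y
    have hc1 : Continuous (fun t : T => (t : G) * y) :=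
      continuous_subtype_val.mul continuous_const
    have hm0' : Measurable (fun t : T => b ((t : G) * y)) := hb.comp hc1.measurable
    rw [lintegral_const_mul _ hm0']
    calc I y * ∫⁻ t : T, b ((t : G) * y) ∂μT ≤ I y * 1 := by gcongr; exact hcut y
      _ = I y := mul_one _
  have hTon : ∫⁻ y, Θ y * b y ∂μ ≤ μ C' := by
    calc ∫⁻ y, Θ y * b y ∂μ = ∫⁻ y, ∫⁻ t : T, I (((t : G))⁻¹ * y) * b y ∂μT ∂μ :=
          lintegral_congr hA
      _ = ∫⁻ t : T, ∫⁻ y, I (((t : G))⁻¹ * y) * b y ∂μ ∂μT := hB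
      _ = ∫⁻ t : T, ∫⁻ y, I y * b ((t : G) * y) ∂μ ∂μT := lintegral_congr hCt
      _ = ∫⁻ y, ∫⁻ t : T, I y * b ((t : G) * y) ∂μT ∂μ := hD
      _ ≤ ∫⁻ y, I y ∂μ := lintegral_mono hE
      _ = μ C' := by
          rw [hI]
          exact lintegral_indicator_one hC'm
  -- conclusion
  refine ⟨m⁻¹ * μ C', ENNReal.mul_ne_top (ENNReal.inv_ne_top.2 hm_ne0) hC'c.measure_lt_top.ne,
    ?_⟩
  intro f hfs hfb
  have hpt : ∀ y, f y ≤ m⁻¹ * (Θ y * b y) := by
    intro y
    by_cases hy : f y = 0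
    · rw [hy]
      exact zero_le
    · have h1 : m ≤ Θ y := hlow y (hfs y hy)
      have h2 : 1 ≤ m⁻¹ * Θ y := by
        calc (1 : ℝ≥0∞) = m⁻¹ * m := (ENNReal.inv_mul_cancel hm_ne0 hm_top).symm
          _ ≤ m⁻¹ * Θ y := by gcongr
      calc f y ≤ b y := hfb y
        _ = 1 * b y := (one_mul _).symm
        _ ≤ m⁻¹ * Θ y * b y := by gcongr
        _ = m⁻¹ * (Θ y * b y) := mul_assoc _ _ _
  calc ∫⁻ y, f y ∂μ ≤ ∫⁻ y, m⁻¹ * (Θ y * b y) ∂μ := lintegral_mono hpt
    _ = m⁻¹ * ∫⁻ y, Θ y * b y ∂μ := lintegral_const_mul' _ _ (ENNReal.inv_ne_top.2 hm_ne0)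
    _ ≤ m⁻¹ * μ C' := by gcongr

/-- **Integrability of the cut-off integrand.** -/
theorem integrable_mul_cut194 {β : G → ℝ} (hβm : Measurable β) (hβ0 : ∀ x, 0 ≤ β x)
    (hcut : ∀ x : G, ∫ t : T, β ((t : G) * x) ∂μT = 1) {C : Set G} (hC : IsCompact C)
    {Ψ : G → ℂ} (hΨm : Measurable Ψ) {M : ℝ} (hΨb : ∀ y, ‖Ψ y‖ ≤ M)
    (hΨs : ∀ y, Ψ y ≠ 0 → ∃ t ∈ T, ∃ x ∈ C, y = t * x) :
    Integrable (fun y => Ψ y * ((β y : ℝ) : ℂ)) μ := by
  have hcut' : ∀ y, ∫⁻ t : T, ENNReal.ofReal (β ((t : G) * y)) ∂μT ≤ 1 := by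
    intro y
    have h1 := hcut y
    have hint : Integrable (fun t : T => β ((t : G) * y)) μT := by
      by_contra hni
      rw [integral_undef hni] at h1
      exact zero_ne_one h1
    rw [← ofReal_integral_eq_lintegral_ofReal hint
      (Filter.Eventually.of_forall fun t => hβ0 _), h1, ENNReal.ofReal_one]
  obtain ⟨c, hc, H⟩ := lintegral_le_of_supp194 T μ μT
    (b := fun y => ENNReal.ofReal (β y)) (ENNReal.measurable_ofReal.comp hβm) hcut' hC
  refine ⟨(hΨm.mul (Complex.measurable_ofReal.comp hβm)).aestronglyMeasurable, ?_⟩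
  classical
  set f : G → ℝ≥0∞ := fun y => if Ψ y = 0 then 0 else ENNReal.ofReal (β y) with hf
  have hfs : ∀ y, f y ≠ 0 → ∃ t ∈ T, ∃ x ∈ C, y = t * x := by
    intro y hy
    refine hΨs y fun h0 => hy ?_
    rw [hf]
    simp only [h0, if_true]
  have hfb : ∀ y, f y ≤ ENNReal.ofReal (β y) := by
    intro y
    rw [hf]
    by_cases h0 : Ψ y = 0
    · simp only [h0, if_true]
      exact zero_le
    · simp only [h0, if_false]
      exact le_rfl
  have hpt : ∀ y, ‖Ψ y * ((β y : ℝ) : ℂ)‖ₑ ≤ ENNReal.ofReal M * f y := by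
    intro y
    by_cases h0 : Ψ y = 0
    · rw [h0, zero_mul, enorm_zero]
      exact zero_le
    · have hfy : f y = ENNReal.ofReal (β y) := by
        rw [hf]
        simp only [h0, if_false]
      rw [hfy, ← ofReal_norm, norm_mul, Complex.norm_real, Real.norm_of_nonneg (hβ0 y),
        ENNReal.ofReal_mul (norm_nonneg _)]
      gcongr
      exact hΨb y
  show ∫⁻ y, ‖Ψ y * ((β y : ℝ) : ℂ)‖ₑ ∂μ < ∞
  calc ∫⁻ y, ‖Ψ y * ((β y : ℝ) : ℂ)‖ₑ ∂μ ≤ ∫⁻ y, ENNReal.ofReal M * f y ∂μ := lintegral_mono hpt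
    _ = ENNReal.ofReal M * ∫⁻ y, f y ∂μ := lintegral_const_mul' _ _ ENNReal.ofReal_ne_top
    _ ≤ ENNReal.ofReal M * c := by gcongr; exact H f hfs hfb
    _ < ∞ := ENNReal.mul_lt_top ENNReal.ofReal_lt_top (lt_top_iff_ne_top.2 hc)

end IntegAbs

end Fermat.Agent.LT.T7.H194

end
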