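import Mathlib

/-!
# Row LT, tower T7, station C2.7 (cut-off integrals): ASSET, closed orbits of regular elements of
`GL₂` -- the algebra (helper194)

OFF-MAIN.  Mathlib only.  No hole, nothing assumed.

For a `2 × 2` matrix `A` and `u ∈ {e₁, e₂, e₁ + e₂}` the matrix `N_u(A) = [u, A u]` satisfies
`A N_u(A) = N_u(A) C(A)`, `C(A)` the companion matrix of the characteristic polynomial
(Cayley--Hamilton), and one of the three determinants is not `0` if `A` is not a scalar matrix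
(e.g. if the discriminant of `A` is not `0`).  So two elements `A`, `B` of `GL₂` over a field with
the same trace and determinant, not scalar, are conjugate by `c = n_u(A) n_{u'}(B)⁻¹`, EXPLICIT in
the entries.
-/

set_option autoImplicit false

noncomputable section

namespace Fermat.Agent.LT.T7.H194

open Matrix

section Ring

variable {R : Type*} [CommRing R]

/-- `N_i(A) = [u, A u]` for `u = e₁` (`i = 0`), `e₂` (`i = 1`), `e₁ + e₂` (`i = 2`). -/
def cycMat194 (i : Fin 3) (A : Matrix (Fin 2) (Fin 2) R) : Matrix (Fin 2) (Fin 2) R :=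
  match i with
  | 0 => !![1, A 0 0; 0, A 1 0]
  | 1 => !![0, A 0 1; 1, A 1 1]
  | 2 => !![1, A 0 0 + A 0 1; 1, A 1 0 + A 1 1]

/-- The determinant of `N_i(A)`. -/
def cycDet194 (i : Fin 3) (A : Matrix (Fin 2) (Fin 2) R) : R :=
  match i with
  | 0 => A 1 0
  | 1 => -A 0 1
  | 2 => A 1 0 + A 1 1 - A 0 0 - A 0 1

/-- The adjugate of `N_i(A)`. -/
def cycAdj194 (i : Fin 3) (A : Matrix (Fin 2) (Fin 2) R) : Matrix (Fin 2) (Fin 2) R :=
  match i with
  | 0 => !![A 1 0, -A 0 0; 0, 1]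
  | 1 => !![A 1 1, -A 0 1; -1, 0]
  | 2 => !![A 1 0 + A 1 1, -(A 0 0 + A 0 1); -1, 1]

/-- The companion matrix of the characteristic polynomial of `A`. -/
def compMat194 (A : Matrix (Fin 2) (Fin 2) R) : Matrix (Fin 2) (Fin 2) R :=
  !![0, -A.det; 1, A.trace]

set_option linter.unnecessarySeqFocus false in
theorem det_cycMat194 (i : Fin 3) (A : Matrix (Fin 2) (Fin 2) R) :
    (cycMat194 i A).det = cycDet194 i A := by
  fin_cases i <;> simp [cycMat194, cycDet194, Matrix.det_fin_two] <;> ring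

theorem cycMat_mul_adj194 (i : Fin 3) (A : Matrix (Fin 2) (Fin 2) R) :
    cycMat194 i A * cycAdj194 i A = cycDet194 i A • (1 : Matrix (Fin 2) (Fin 2) R) := by
  fin_cases i <;> ext a b <;> fin_cases a <;> fin_cases b <;>
    simp [cycMat194, cycDet194, cycAdj194, Matrix.mul_apply, Fin.sum_univ_two] <;> ring

theorem adj_mul_cycMat194 (i : Fin 3) (A : Matrix (Fin 2) (Fin 2) R) :
    cycAdj194 i A * cycMat194 i A = cycDet194 i A • (1 : Matrix (Fin 2) (Fin 2) R) := by
  fin_cases i <;> ext a b <;> fin_cases a <;> fin_cases b <;>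
    simp [cycMat194, cycDet194, cycAdj194, Matrix.mul_apply, Fin.sum_univ_two] <;> ring

/-- Cayley--Hamilton: `A [u, A u] = [u, A u] C(A)`. -/
theorem mul_cycMat194 (i : Fin 3) (A : Matrix (Fin 2) (Fin 2) R) :
    A * cycMat194 i A = cycMat194 i A * compMat194 A := by
  fin_cases i <;> ext a b <;> fin_cases a <;> fin_cases b <;>
    simp [cycMat194, compMat194, Matrix.mul_apply, Fin.sum_univ_two, Matrix.det_fin_two,
      Matrix.trace_fin_two] <;> ring

/-- If the three determinants vanish, `A` is a scalar matrix and its discriminant vanishes. -/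
theorem disc_eq_zero_of_cycDet194 (A : Matrix (Fin 2) (Fin 2) R)
    (h : ∀ i : Fin 3, cycDet194 i A = 0) : A.trace ^ 2 - 4 * A.det = 0 := by
  have h0 : A 1 0 = 0 := h 0
  have h1 : -A 0 1 = 0 := h 1
  have h2 : A 1 0 + A 1 1 - A 0 0 - A 0 1 = 0 := h 2
  have h1' : A 0 1 = 0 := neg_eq_zero.mp h1
  have h3 : A 1 1 = A 0 0 := by
    have := h2
    rw [h0, h1'] at this
    linear_combination this
  rw [Matrix.trace_fin_two, Matrix.det_fin_two, h0, h1', h3]
  ring

end Ring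

section Field

variable {k : Type*} [Field k]

/-- `n_i(A) ∈ GL₂(k)` if `det N_i(A) ≠ 0`. -/
def cycGL194 (i : Fin 3) (A : Matrix (Fin 2) (Fin 2) k) (h : cycDet194 i A ≠ 0) :
    GL (Fin 2) k where
  val := cycMat194 i A
  inv := (cycDet194 i A)⁻¹ • cycAdj194 i A
  val_inv := by
    rw [Matrix.mul_smul, cycMat_mul_adj194, smul_smul, inv_mul_cancel₀ h, one_smul]
  inv_val := by
    rw [Matrix.smul_mul, adj_mul_cycMat194, smul_smul, inv_mul_cancel₀ h, one_smul]

theorem coe_cycGL194 (i : Fin 3) (A : Matrix (Fin 2) (Fin 2) k) (h : cycDet194 i A ≠ 0) :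
    ((cycGL194 i A h : GL (Fin 2) k) : Matrix (Fin 2) (Fin 2) k) = cycMat194 i A := rfl

theorem coe_inv_cycGL194 (i : Fin 3) (A : Matrix (Fin 2) (Fin 2) k) (h : cycDet194 i A ≠ 0) :
    (((cycGL194 i A h)⁻¹ : GL (Fin 2) k) : Matrix (Fin 2) (Fin 2) k)
      = (cycDet194 i A)⁻¹ • cycAdj194 i A := rfl

/-- `n⁻¹ A n = C(A)`. -/
theorem cycGL_conj194 (i : Fin 3) (A : GL (Fin 2) k)
    (h : cycDet194 i (A : Matrix (Fin 2) (Fin 2) k) ≠ 0) :
    (((cycGL194 i (A : Matrix (Fin 2) (Fin 2) k) h)⁻¹ * A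
        * cycGL194 i (A : Matrix (Fin 2) (Fin 2) k) h : GL (Fin 2) k) :
        Matrix (Fin 2) (Fin 2) k)
      = compMat194 (A : Matrix (Fin 2) (Fin 2) k) := by
  have e := mul_cycMat194 i (A : Matrix (Fin 2) (Fin 2) k)
  have hinv : (((cycGL194 i (A : Matrix (Fin 2) (Fin 2) k) h)⁻¹ : GL (Fin 2) k) :
      Matrix (Fin 2) (Fin 2) k) * cycMat194 i (A : Matrix (Fin 2) (Fin 2) k) = 1 := by
    have := (cycGL194 i (A : Matrix (Fin 2) (Fin 2) k) h).inv_val
    exact this
  rw [Units.val_mul, Units.val_mul, coe_cycGL194, Matrix.mul_assoc, e, ← Matrix.mul_assoc, hinv,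
    Matrix.one_mul]

/-- **Explicit conjugation.**  Two elements of `GL₂(k)` with the same trace and determinant and
invertible `N_i(A)`, `N_j(B)` are conjugate by `c = n_i(A) n_j(B)⁻¹`: `c⁻¹ A c = B`. -/
theorem conj_cycGL194 (i j : Fin 3) (A B : GL (Fin 2) k)
    (htr : (A : Matrix (Fin 2) (Fin 2) k).trace = (B : Matrix (Fin 2) (Fin 2) k).trace)
    (hdet : (A : Matrix (Fin 2) (Fin 2) k).det = (B : Matrix (Fin 2) (Fin 2) k).det)
    (hA : cycDet194 i (A : Matrix (Fin 2) (Fin 2) k) ≠ 0)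
    (hB : cycDet194 j (B : Matrix (Fin 2) (Fin 2) k) ≠ 0) :
    (cycGL194 i (A : Matrix (Fin 2) (Fin 2) k) hA
        * (cycGL194 j (B : Matrix (Fin 2) (Fin 2) k) hB)⁻¹)⁻¹ * A
      * (cycGL194 i (A : Matrix (Fin 2) (Fin 2) k) hA
        * (cycGL194 j (B : Matrix (Fin 2) (Fin 2) k) hB)⁻¹) = B := by
  have h1 : (cycGL194 i (A : Matrix (Fin 2) (Fin 2) k) hA)⁻¹ * A
        * cycGL194 i (A : Matrix (Fin 2) (Fin 2) k) hA
      = (cycGL194 j (B : Matrix (Fin 2) (Fin 2) k) hB)⁻¹ * B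
        * cycGL194 j (B : Matrix (Fin 2) (Fin 2) k) hB := by
    apply Units.ext
    rw [cycGL_conj194, cycGL_conj194]
    unfold compMat194
    rw [htr, hdet]
  set nA := cycGL194 i (A : Matrix (Fin 2) (Fin 2) k) hA
  set nB := cycGL194 j (B : Matrix (Fin 2) (Fin 2) k) hB
  calc (nA * nB⁻¹)⁻¹ * A * (nA * nB⁻¹)
      = nB * (nA⁻¹ * A * nA) * nB⁻¹ := by group
    _ = nB * (nB⁻¹ * B * nB) * nB⁻¹ := by rw [h1]
    _ = B := by group

end Field

end Fermat.Agent.LT.T7.H194

end
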