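import Mathlib
import Fermat.Agent.LT.T7.H194.Orb.CycAlg

/-!
# Row LT, tower T7, station C2.7 (cut-off integrals): ASSET, closed orbits of regular elements of
`GL₂` -- the topology (helper194)

OFF-MAIN.  Mathlib only.  No hole, nothing assumed.

    exists_compact_conj194 : γ ∈ GL₂(k) with discriminant ≠ 0, `Kc ⊆ GL₂(k)` compact:
        there is a compact `C` with `{y : y⁻¹ γ y ∈ Kc} ⊆ Z(γ) C`

for EVERY Hausdorff topological field `k` (`ℂ`, `ℝ`, the completions `K_v`): the orbit map
`Z(γ) \ GL₂(k) → GL₂(k)` of a regular element is proper.  Proof: the elements of `Kc` with the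
trace and determinant of `γ` form a compact set `D`; it is covered by the three open sets
`det N_i ≠ 0` (`CycAlg.lean`), hence by three compact sets `v_i` inside them (shrinking lemma);
`κ ↦ n_{i₀}(γ) n_i(κ)⁻¹` is continuous on `v_i` and conjugates `γ` to `κ`.
-/

set_option autoImplicit false
set_option linter.unusedSectionVars false
set_option linter.style.haveILetI false

noncomputable section

namespace Fermat.Agent.LT.T7.H194

open Matrix Set Topology

variable {k : Type*} [Field k] [TopologicalSpace k] [IsTopologicalDivisionRing k] [T2Space k]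

theorem continuous_entryGL194 (a b : Fin 2) :
    Continuous (fun g : GL (Fin 2) k => (g : Matrix (Fin 2) (Fin 2) k) a b) :=
  (Units.continuous_val (M := Matrix (Fin 2) (Fin 2) k)).matrix_elem a b

theorem continuous_traceGL194 :
    Continuous (fun g : GL (Fin 2) k => (g : Matrix (Fin 2) (Fin 2) k).trace) := by
  simp only [Matrix.trace_fin_two]
  exact (continuous_entryGL194 0 0).add (continuous_entryGL194 1 1)

theorem continuous_detGL194 :
    Continuous (fun g : GL (Fin 2) k => (g : Matrix (Fin 2) (Fin 2) k).det) := by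
  simp only [Matrix.det_fin_two]
  exact ((continuous_entryGL194 0 0).mul (continuous_entryGL194 1 1)).sub
    ((continuous_entryGL194 0 1).mul (continuous_entryGL194 1 0))

theorem continuous_cycDet194 (i : Fin 3) :
    Continuous (fun g : GL (Fin 2) k => cycDet194 i (g : Matrix (Fin 2) (Fin 2) k)) := by
  fin_cases i
  · exact continuous_entryGL194 1 0
  · exact (continuous_entryGL194 0 1).neg
  · exact (((continuous_entryGL194 1 0).add (continuous_entryGL194 1 1)).sub
      (continuous_entryGL194 0 0)).sub (continuous_entryGL194 0 1)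

theorem continuous_cycMat194 (i : Fin 3) :
    Continuous (fun g : GL (Fin 2) k => cycMat194 i (g : Matrix (Fin 2) (Fin 2) k)) := by
  have h := fun a b => continuous_entryGL194 (k := k) a b
  refine continuous_matrix fun a b => ?_
  fin_cases i <;> fin_cases a <;> fin_cases b <;> simp [cycMat194] <;>
    first
      | exact continuous_const
      | exact h _ _
      | exact (h _ _).add (h _ _)

theorem continuous_cycAdj194 (i : Fin 3) :
    Continuous (fun g : GL (Fin 2) k => cycAdj194 i (g : Matrix (Fin 2) (Fin 2) k)) := by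
  have h := fun a b => continuous_entryGL194 (k := k) a b
  refine continuous_matrix fun a b => ?_
  fin_cases i <;> fin_cases a <;> fin_cases b <;> simp [cycAdj194] <;>
    first
      | exact continuous_const
      | exact h _ _
      | exact (h _ _).neg
      | exact (h _ _).add (h _ _)
      | exact ((h _ _).add (h _ _)).neg
      | exact ((h _ _).neg).sub (h _ _)
      | exact ((h _ _).neg).add ((h _ _).neg)

/-- Trace and determinant are invariant under conjugation. -/
theorem trace_conjGL194 (γ y : GL (Fin 2) k) :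
    ((y⁻¹ * γ * y : GL (Fin 2) k) : Matrix (Fin 2) (Fin 2) k).trace
      = (γ : Matrix (Fin 2) (Fin 2) k).trace := by
  rw [Units.val_mul, Units.val_mul, Matrix.trace_mul_cycle, ← Units.val_mul, mul_inv_cancel,
    Units.val_one, Matrix.one_mul]

theorem det_conjGL194 (γ y : GL (Fin 2) k) :
    ((y⁻¹ * γ * y : GL (Fin 2) k) : Matrix (Fin 2) (Fin 2) k).det
      = (γ : Matrix (Fin 2) (Fin 2) k).det := by
  have h1 : ((y⁻¹ : GL (Fin 2) k) : Matrix (Fin 2) (Fin 2) k).det
      * (y : Matrix (Fin 2) (Fin 2) k).det = 1 := by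
    rw [← Matrix.det_mul, ← Units.val_mul, inv_mul_cancel, Units.val_one, Matrix.det_one]
  rw [Units.val_mul, Units.val_mul, Matrix.det_mul, Matrix.det_mul]
  calc ((y⁻¹ : GL (Fin 2) k) : Matrix (Fin 2) (Fin 2) k).det
        * (γ : Matrix (Fin 2) (Fin 2) k).det * (y : Matrix (Fin 2) (Fin 2) k).det
      = (γ : Matrix (Fin 2) (Fin 2) k).det
        * (((y⁻¹ : GL (Fin 2) k) : Matrix (Fin 2) (Fin 2) k).det
          * (y : Matrix (Fin 2) (Fin 2) k).det) := by ring
    _ = (γ : Matrix (Fin 2) (Fin 2) k).det := by rw [h1, mul_one]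

/-- **Closed orbits of regular elements: the orbit map is proper.** -/
theorem exists_compact_conj194 (γ : GL (Fin 2) k)
    (hγ : (γ : Matrix (Fin 2) (Fin 2) k).trace ^ 2 - 4 * (γ : Matrix (Fin 2) (Fin 2) k).det ≠ 0)
    {Kc : Set (GL (Fin 2) k)} (hK : IsCompact Kc) :
    ∃ C : Set (GL (Fin 2) k), IsCompact C ∧
      ∀ y : GL (Fin 2) k, y⁻¹ * γ * y ∈ Kc →
        ∃ t : GL (Fin 2) k, t⁻¹ * γ * t = γ ∧ ∃ c ∈ C, y = t * c := by
  -- the base point
  obtain ⟨i₀, hi₀⟩ : ∃ i : Fin 3, cycDet194 i (γ : Matrix (Fin 2) (Fin 2) k) ≠ 0 := by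
    by_contra hcon
    exact hγ (disc_eq_zero_of_cycDet194 _ fun i => by
      by_contra h
      exact hcon ⟨i, h⟩)
  -- the compact set `D`
  set D : Set (GL (Fin 2) k) := Kc ∩ {κ | (κ : Matrix (Fin 2) (Fin 2) k).trace
      = (γ : Matrix (Fin 2) (Fin 2) k).trace ∧ (κ : Matrix (Fin 2) (Fin 2) k).det
      = (γ : Matrix (Fin 2) (Fin 2) k).det} with hD
  have hDc : IsCompact D := by
    refine hK.inter_right ?_
    exact (isClosed_eq continuous_traceGL194 continuous_const).inter
      (isClosed_eq continuous_detGL194 continuous_const)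
  haveI : CompactSpace D := isCompact_iff_compactSpace.mp hDc
  -- the open cover
  set u : Fin 3 → Set D := fun i => {x | cycDet194 i ((x : GL (Fin 2) k) :
    Matrix (Fin 2) (Fin 2) k) ≠ 0} with hu
  have huo : ∀ i, IsOpen (u i) := fun i =>
    isOpen_ne_fun ((continuous_cycDet194 i).comp continuous_subtype_val) continuous_const
  have huU : ⋃ i, u i = univ := by
    refine eq_univ_of_forall fun x => ?_
    have hx : ∃ i : Fin 3, cycDet194 i ((x : GL (Fin 2) k) : Matrix (Fin 2) (Fin 2) k) ≠ 0 := by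
      by_contra hcon
      have h0 := disc_eq_zero_of_cycDet194
        (((x : GL (Fin 2) k) : Matrix (Fin 2) (Fin 2) k)) fun i => by
          by_contra h
          exact hcon ⟨i, h⟩
      rw [x.2.2.1, x.2.2.2] at h0
      exact hγ h0
    obtain ⟨i, hi⟩ := hx
    exact mem_iUnion.2 ⟨i, hi⟩
  obtain ⟨v, hvU, hvc, hvu⟩ := exists_iUnion_eq_closed_subset huo
    (fun x => Set.toFinite _) huU
  haveI : ∀ i, CompactSpace (v i) := fun i => isCompact_iff_compactSpace.mp (hvc i).isCompact
  -- the continuous sections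
  set Φ : ∀ i, v i → GL (Fin 2) k := fun i x =>
    cycGL194 i (((x : D) : GL (Fin 2) k) : Matrix (Fin 2) (Fin 2) k) (hvu i x.2) with hΦ
  have hΦc : ∀ i, Continuous (Φ i) := by
    intro i
    rw [Units.continuous_iff]
    constructor
    · exact (continuous_cycMat194 i).comp (continuous_subtype_val.comp continuous_subtype_val)
    · have h1 : Continuous (fun x : v i =>
          (cycDet194 i (((x : D) : GL (Fin 2) k) : Matrix (Fin 2) (Fin 2) k))⁻¹) :=
        ((continuous_cycDet194 i).comp
          (continuous_subtype_val.comp continuous_subtype_val)).inv₀ (fun x => hvu i x.2)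
      have h2 : Continuous (fun x : v i =>
          cycAdj194 i (((x : D) : GL (Fin 2) k) : Matrix (Fin 2) (Fin 2) k)) :=
        (continuous_cycAdj194 i).comp (continuous_subtype_val.comp continuous_subtype_val)
      exact h1.smul h2
  set nγ : GL (Fin 2) k := cycGL194 i₀ (γ : Matrix (Fin 2) (Fin 2) k) hi₀ with hnγ
  refine ⟨⋃ i, range (fun x : v i => nγ * (Φ i x)⁻¹), ?_, ?_⟩
  · exact isCompact_iUnion fun i =>
      isCompact_range (continuous_const.mul (hΦc i).inv)
  · intro y hy
    have hyD : y⁻¹ * γ * y ∈ D := ⟨hy, trace_conjGL194 γ y, det_conjGL194 γ y⟩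
    obtain ⟨i, hi⟩ : ∃ i, (⟨y⁻¹ * γ * y, hyD⟩ : D) ∈ v i := by
      have : (⟨y⁻¹ * γ * y, hyD⟩ : D) ∈ ⋃ i, v i := by
        rw [hvU]
        exact mem_univ _
      exact mem_iUnion.1 this
    set c : GL (Fin 2) k := nγ * (Φ i ⟨⟨y⁻¹ * γ * y, hyD⟩, hi⟩)⁻¹ with hc
    have hconj : c⁻¹ * γ * c = y⁻¹ * γ * y :=
      conj_cycGL194 i₀ i γ (y⁻¹ * γ * y) (trace_conjGL194 γ y).symm (det_conjGL194 γ y).symm
        hi₀ (hvu i hi)
    refine ⟨y * c⁻¹, ?_, c, mem_iUnion.2 ⟨i, ⟨⟨⟨y⁻¹ * γ * y, hyD⟩, hi⟩, rfl⟩⟩, ?_⟩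
    · calc (y * c⁻¹)⁻¹ * γ * (y * c⁻¹) = c * (y⁻¹ * γ * y) * c⁻¹ := by group
        _ = c * (c⁻¹ * γ * c) * c⁻¹ := by rw [hconj]
        _ = γ := by group
    · group

end Fermat.Agent.LT.T7.H194

end
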