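import Mathlib
import Fermat.Agent.LT.T7.H305.MatchCut
import Fermat.Agent.LT.T7.H194.Orb.SuppTop
import Fermat.Agent.LT.T7.H194.Orb.IntegAbs

/-!
# Row LT, tower T7, station C2.7 (cut-off integrals), nodes `FactDownC305` / `FactUpC305`:
ASSET, the archimedean factor (helper194)

OFF-MAIN.  On `LT/T7/H305/MatchCut.lean` (helper305@56ddcdc02, sha256 0f302b81, byte-identical
copy; vocabulary `cent305`, `IsCut305`, `locInt305` only) and the Mathlib-only assets
`Orb/SuppTop.lean`, `Orb/IntegAbs.lean`.  No hole, nothing assumed.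

The proof of `FactDownC305` exchanges the sum over the ray with the integral over
`∏_{w ∣ ∞} GL₂(ℂ)`; the Bochner integral of a non-integrable function is `0`, so the exchange
NEEDS the integrability of the archimedean cut-off integrands (closed orbits of regular
elements).  Here:

* `archIntegrable194` : `γ ∈ GL₂(ℂ)` regular, `z` central, `β` a cut-off for the centraliser of
  `γ` (`IsCut305`), `F` continuous with compact support:
  `y ↦ F(y⁻¹ (γ z) y) β(y)` is integrable for every Haar measure of `GL₂(ℂ)`;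
* `exists_ray_finset194` : the sum over the ray is finite, uniformly in `y`
  (`|det (y⁻¹ γ zʲ y)| = |det γ| t^{2j}`);
* `archSum194` : for a finite family of places

      ∫ (∑' j, ∏_w F_w(y_w⁻¹ (γ_w z_wʲ) y_w)) ∏_w β_w(y_w) d(∏ μc)
        = ∑' j, ∏_w locInt305 μc β_w F_w (γ_w z_wʲ),

  the archimedean factor of `factVal305`.
-/

set_option autoImplicit false
set_option linter.unusedSectionVars false
set_option linter.unusedVariables false
set_option linter.style.haveILetI false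

open MeasureTheory

noncomputable section

namespace Fermat.Agent.LT.T7.H194

open Fermat.Agent.LT Fermat.Agent.LT.T7 Fermat.Agent.LT.T7.H305

/-! ## `GL₂(ℂ)` -/

theorem secondCountable_GL2C194 : SecondCountableTopology (GL (Fin 2) ℂ) := by
  have : SecondCountableTopology (Matrix (Fin 2) (Fin 2) ℂ) :=
    inferInstanceAs (SecondCountableTopology (Fin 2 → Fin 2 → ℂ))
  have : SecondCountableTopology (Matrix (Fin 2) (Fin 2) ℂ)ᵐᵒᵖ :=
    MulOpposite.opHomeomorph.symm.secondCountableTopology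
  exact (Units.isEmbedding_embedProduct (M := Matrix (Fin 2) (Fin 2) ℂ)).secondCountableTopology

theorem locallyCompact_GL2C194 : LocallyCompactSpace (GL (Fin 2) ℂ) := by
  have : LocallyCompactSpace (Matrix (Fin 2) (Fin 2) ℂ) :=
    inferInstanceAs (LocallyCompactSpace (Fin 2 → Fin 2 → ℂ))
  exact (Units.isClosedEmbedding_embedProduct (α := Matrix (Fin 2) (Fin 2) ℂ)).locallyCompactSpace

/-- The centraliser is closed (any topological group). -/
theorem isClosed_cent194 {H : Type} [Group H] [TopologicalSpace H] [IsTopologicalGroup H]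
    [T2Space H] (γ : H) : IsClosed ((cent305 γ : Subgroup H) : Set H) := by
  have hc : Continuous (fun x : H => x⁻¹ * γ * x) :=
    (continuous_inv.mul continuous_const).mul continuous_id
  exact isClosed_eq hc continuous_const

theorem mem_cent_iff194 {H : Type} [Group H] (γ x : H) :
    x ∈ cent305 γ ↔ x⁻¹ * γ * x = γ := Iff.rfl

/-! ## Integrability -/

/-- **The archimedean cut-off integrand is integrable.** -/
theorem archIntegrable194 (γ : GL (Fin 2) ℂ) (hγ : T6.IsReg γ)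
    (μc : @Measure (GL (Fin 2) ℂ) (borel _)) (hμc : @Measure.IsHaarMeasure _ _ _ (borel _) μc)
    (μT : @Measure (cent305 γ) (borel _)) (hμT : @Measure.IsHaarMeasure _ _ _ (borel _) μT)
    (β : GL (Fin 2) ℂ → ℝ) (hβ : IsCut305 γ μT β)
    (F : GL (Fin 2) ℂ → ℂ) (hF : Continuous F) (hFc : HasCompactSupport F)
    (z : GL (Fin 2) ℂ) (hz : ∀ x : GL (Fin 2) ℂ, z * x = x * z) :
    Integrable (fun y : GL (Fin 2) ℂ => F (y⁻¹ * (γ * z) * y) * ((β y : ℝ) : ℂ)) μc := by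
  letI : MeasurableSpace (GL (Fin 2) ℂ) := borel _
  haveI : BorelSpace (GL (Fin 2) ℂ) := ⟨rfl⟩
  letI : MeasurableSpace (cent305 γ) := borel _
  haveI : BorelSpace (cent305 γ) := ⟨rfl⟩
  haveI := secondCountable_GL2C194
  haveI := locallyCompact_GL2C194
  haveI : μc.IsHaarMeasure := hμc
  haveI : μT.IsHaarMeasure := hμT
  haveI : SigmaCompactSpace (cent305 γ) := (isClosed_cent194 γ).sigmaCompactSpace
  obtain ⟨hβc, hβ0, hβ1⟩ := hβ
  -- the support
  have hdisc : (γ : Matrix (Fin 2) (Fin 2) ℂ).trace ^ 2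
      - 4 * (γ : Matrix (Fin 2) (Fin 2) ℂ).det ≠ 0 := (isUnit_iff_ne_zero.1 hγ)
  have hKc : IsCompact ((fun h : GL (Fin 2) ℂ => h * z⁻¹) '' tsupport F) :=
    hFc.isCompact.image (continuous_id.mul continuous_const)
  obtain ⟨C, hC, hsupp⟩ := exists_compact_conj194 γ hdisc hKc
  obtain ⟨M, hM⟩ := hF.bounded_above_of_compact_support hFc
  have hΨc : Continuous (fun y : GL (Fin 2) ℂ => F (y⁻¹ * (γ * z) * y)) :=
    hF.comp ((continuous_inv.mul continuous_const).mul continuous_id)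
  refine integrable_mul_cut194 (cent305 γ) μc μT hβc.measurable hβ0 hβ1 hC hΨc.measurable
    (M := M) (fun y => hM _) ?_
  intro y hy
  have h1 : y⁻¹ * (γ * z) * y ∈ tsupport F := subset_tsupport F hy
  have h2 : y⁻¹ * γ * y ∈ (fun h : GL (Fin 2) ℂ => h * z⁻¹) '' tsupport F := by
    refine ⟨y⁻¹ * (γ * z) * y, h1, ?_⟩
    show y⁻¹ * (γ * z) * y * z⁻¹ = y⁻¹ * γ * y
    have e : y⁻¹ * (γ * z) * y = y⁻¹ * γ * y * z := by
      calc y⁻¹ * (γ * z) * y = y⁻¹ * γ * (z * y) := by simp only [mul_assoc]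
        _ = y⁻¹ * γ * (y * z) := by rw [hz y]
        _ = y⁻¹ * γ * y * z := by simp only [mul_assoc]
    rw [e, mul_inv_cancel_right]
  obtain ⟨t, ht, c, hc, hyc⟩ := hsupp y h2
  exact ⟨t, (mem_cent_iff194 γ t).2 ht, c, hc, hyc⟩

/-! ## The ray -/

/-- A scalar matrix is central. -/
theorem central_of_scalar194 (z : GL (Fin 2) ℂ) (t : ℂ)
    (hz : (z : Matrix (Fin 2) (Fin 2) ℂ) = Matrix.diagonal (fun _ => t)) (x : GL (Fin 2) ℂ) :
    z * x = x * z := by
  apply Units.ext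
  rw [Units.val_mul, Units.val_mul, hz]
  ext a b
  rw [Matrix.diagonal_mul, Matrix.mul_diagonal, mul_comm]

theorem det_scalar194 (z : GL (Fin 2) ℂ) (t : ℂ)
    (hz : (z : Matrix (Fin 2) (Fin 2) ℂ) = Matrix.diagonal (fun _ => t)) :
    (z : Matrix (Fin 2) (Fin 2) ℂ).det = t ^ 2 := by
  rw [hz, Matrix.det_diagonal]
  simp

theorem det_mul_zpow194 (g z : GL (Fin 2) ℂ) (j : ℤ) :
    ((g * z ^ j : GL (Fin 2) ℂ) : Matrix (Fin 2) (Fin 2) ℂ).det
      = (g : Matrix (Fin 2) (Fin 2) ℂ).det * (z : Matrix (Fin 2) (Fin 2) ℂ).det ^ j := by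
  have h : Matrix.GeneralLinearGroup.det (g * z ^ j)
      = Matrix.GeneralLinearGroup.det g * Matrix.GeneralLinearGroup.det z ^ j := by
    rw [map_mul, map_zpow]
  have h' := congrArg Units.val h
  rw [Units.val_mul, Units.val_zpow_eq_zpow_val] at h'
  exact h'

/-- **The sum over the ray is finite, uniformly.** -/
theorem exists_ray_finset194 (F : GL (Fin 2) ℂ → ℂ) (hF : Continuous F)
    (hFc : HasCompactSupport F) (g z : GL (Fin 2) ℂ) (t : ℝ) (ht : 1 < t)
    (hz : (z : Matrix (Fin 2) (Fin 2) ℂ) = Matrix.diagonal (fun _ => (t : ℂ))) :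
    ∃ J : Finset ℤ, ∀ j : ℤ, j ∉ J → ∀ y : GL (Fin 2) ℂ, F (y⁻¹ * (g * z ^ j) * y) = 0 := by
  -- bounds of the determinant on the support
  set K₀ : Set (GL (Fin 2) ℂ) := tsupport F ∪ {1} with hK₀
  have hK₀c : IsCompact K₀ := hFc.isCompact.union isCompact_singleton
  have hK₀n : K₀.Nonempty := ⟨1, Or.inr rfl⟩
  have hdc : Continuous (fun h : GL (Fin 2) ℂ => ‖(h : Matrix (Fin 2) (Fin 2) ℂ).det‖) :=
    continuous_norm.comp continuous_detGL194
  have hpos : ∀ h : GL (Fin 2) ℂ, 0 < ‖(h : Matrix (Fin 2) (Fin 2) ℂ).det‖ := by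
    intro h
    rw [norm_pos_iff]
    have := (Matrix.GeneralLinearGroup.det h).ne_zero
    simpa using this
  obtain ⟨x₀, hx₀, hmin⟩ := hK₀c.exists_isMinOn hK₀n hdc.continuousOn
  obtain ⟨x₁, hx₁, hmax⟩ := hK₀c.exists_isMaxOn hK₀n hdc.continuousOn
  set a : ℝ := ‖(x₀ : Matrix (Fin 2) (Fin 2) ℂ).det‖ with ha
  set b : ℝ := ‖(x₁ : Matrix (Fin 2) (Fin 2) ℂ).det‖ with hb
  set d : ℝ := ‖(g : Matrix (Fin 2) (Fin 2) ℂ).det‖ with hd
  have ha0 : 0 < a := hpos x₀
  have hd0 : 0 < d := hpos g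
  have ht0 : 0 < t := lt_trans zero_lt_one ht
  have ht2 : 1 < t ^ 2 := by nlinarith
  have hdet : ∀ (j : ℤ) (y : GL (Fin 2) ℂ),
      ‖((y⁻¹ * (g * z ^ j) * y : GL (Fin 2) ℂ) : Matrix (Fin 2) (Fin 2) ℂ).det‖
        = d * (t ^ 2) ^ j := by
    intro j y
    rw [det_conjGL194, det_mul_zpow194, det_scalar194 z (t : ℂ) hz, norm_mul, norm_zpow, norm_pow,
      Complex.norm_real, Real.norm_of_nonneg ht0.le]
  obtain ⟨n₁, hn₁⟩ := pow_unbounded_of_one_lt (b / d) ht2
  obtain ⟨n₂, hn₂⟩ := pow_unbounded_of_one_lt (d / a) ht2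
  have hmono := zpow_right_strictMono₀ ht2
  refine ⟨Finset.Icc (-(n₂ : ℤ)) (n₁ : ℤ), fun j hj y => ?_⟩
  by_contra hne
  have hmem : y⁻¹ * (g * z ^ j) * y ∈ K₀ := Or.inl (subset_tsupport F hne)
  have h1 : a ≤ d * (t ^ 2) ^ j := by
    rw [← hdet j y]
    exact hmin hmem
  have h2 : d * (t ^ 2) ^ j ≤ b := by
    rw [← hdet j y]
    exact hmax hmem
  apply hj
  rw [Finset.mem_Icc]
  constructor
  · by_contra hlt
    have hlt' : j < -(n₂ : ℤ) := lt_of_not_ge hlt
    have h3 : (t ^ 2) ^ j < (t ^ 2) ^ (-(n₂ : ℤ)) := hmono hlt'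
    rw [zpow_neg, zpow_natCast] at h3
    have hpn : 0 < (t ^ 2) ^ n₂ := pow_pos (lt_trans zero_lt_one ht2) _
    have h4 : ((t ^ 2) ^ n₂)⁻¹ < a / d := by
      rw [inv_lt_comm₀ hpn (div_pos ha0 hd0), inv_div]
      exact hn₂
    have h5 : (t ^ 2) ^ j < a / d := lt_trans h3 h4
    have h6 : d * (t ^ 2) ^ j < a := by
      have := mul_lt_mul_of_pos_left h5 hd0
      rwa [mul_div_cancel₀ _ hd0.ne'] at this
    exact absurd h1 (not_le.2 h6)
  · by_contra hlt
    have hlt' : (n₁ : ℤ) < j := lt_of_not_ge hlt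
    have h3 : (t ^ 2) ^ (n₁ : ℤ) < (t ^ 2) ^ j := hmono hlt'
    rw [zpow_natCast] at h3
    have h5 : b / d < (t ^ 2) ^ j := lt_trans hn₁ h3
    have h6 : b < d * (t ^ 2) ^ j := by
      have := mul_lt_mul_of_pos_left h5 hd0
      rwa [mul_div_cancel₀ _ hd0.ne'] at this
    exact absurd h2 (not_le.2 h6)

/-! ## The archimedean factor -/

/-- **The archimedean factor of the factorised value.** -/
theorem archSum194 {ι : Type} [Fintype ι] [Nonempty ι]
    (μc : @Measure (GL (Fin 2) ℂ) (borel _)) (hμc : @Measure.IsHaarMeasure _ _ _ (borel _) μc)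
    (g : ι → GL (Fin 2) ℂ) (hg : ∀ w, T6.IsReg (g w))
    (μT : ∀ w, @Measure (cent305 (g w)) (borel _))
    (hμT : ∀ w, @Measure.IsHaarMeasure _ _ _ (borel _) (μT w))
    (β : ι → GL (Fin 2) ℂ → ℝ) (hβ : ∀ w, IsCut305 (g w) (μT w) (β w))
    (F : ι → GL (Fin 2) ℂ → ℂ) (hF : ∀ w, Continuous (F w) ∧ HasCompactSupport (F w))
    (z : ι → GL (Fin 2) ℂ) (t : ℝ) (ht : 1 < t)
    (hz : ∀ w, ((z w : GL (Fin 2) ℂ) : Matrix (Fin 2) (Fin 2) ℂ)
      = Matrix.diagonal (fun _ => (t : ℂ))) :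
    letI : MeasurableSpace (GL (Fin 2) ℂ) := borel _
    ∫ y : ι → GL (Fin 2) ℂ,
        (∑' j : ℤ, ∏ w, F w ((y w)⁻¹ * (g w * z w ^ j) * y w))
          * ∏ w, ((β w (y w) : ℝ) : ℂ) ∂(Measure.pi fun _ : ι => μc)
      = ∑' j : ℤ, ∏ w, locInt305 μc (β w) (F w) (g w * z w ^ j) := by
  letI : MeasurableSpace (GL (Fin 2) ℂ) := borel _
  haveI : BorelSpace (GL (Fin 2) ℂ) := ⟨rfl⟩
  haveI := secondCountable_GL2C194
  haveI := locallyCompact_GL2C194
  haveI : μc.IsHaarMeasure := hμc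
  obtain ⟨w₀⟩ := (inferInstance : Nonempty ι)
  obtain ⟨J, hJ⟩ := exists_ray_finset194 (F w₀) (hF w₀).1 (hF w₀).2 (g w₀) (z w₀) t ht (hz w₀)
  have hzero : ∀ j : ℤ, j ∉ J → ∀ y : ι → GL (Fin 2) ℂ,
      ∏ w, F w ((y w)⁻¹ * (g w * z w ^ j) * y w) = 0 := fun j hj y =>
    Finset.prod_eq_zero (Finset.mem_univ w₀) (hJ j hj (y w₀))
  have hzero' : ∀ j : ℤ, j ∉ J → ∏ w, locInt305 μc (β w) (F w) (g w * z w ^ j) = 0 := by
    intro j hj
    refine Finset.prod_eq_zero (Finset.mem_univ w₀) ?_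
    unfold locInt305
    have : (fun y : GL (Fin 2) ℂ => F w₀ (y⁻¹ * (g w₀ * z w₀ ^ j) * y) * ((β w₀ y : ℝ) : ℂ))
        = fun _ => 0 := by
      funext y
      rw [hJ j hj y, zero_mul]
    rw [this, integral_zero]
  have hint : ∀ (j : ℤ) (w : ι), Integrable
      (fun y : GL (Fin 2) ℂ => F w (y⁻¹ * (g w * z w ^ j) * y) * ((β w y : ℝ) : ℂ)) μc := by
    intro j w
    refine archIntegrable194 (g w) (hg w) μc hμc (μT w) (hμT w) (β w) (hβ w) (F w) (hF w).1
      (hF w).2 (z w ^ j) ?_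
    intro x
    have hc := central_of_scalar194 (z w) (t : ℂ) (hz w)
    have hc' : Commute (z w) x := hc x
    exact (hc'.zpow_left j).eq
  rw [tsum_eq_sum (s := J) hzero']
  have e1 : ∀ y : ι → GL (Fin 2) ℂ,
      (∑' j : ℤ, ∏ w, F w ((y w)⁻¹ * (g w * z w ^ j) * y w)) * ∏ w, ((β w (y w) : ℝ) : ℂ)
        = ∑ j ∈ J, ∏ w, (F w ((y w)⁻¹ * (g w * z w ^ j) * y w) * ((β w (y w) : ℝ) : ℂ)) := by
    intro y
    rw [tsum_eq_sum (s := J) (fun j hj => hzero j hj y), Finset.sum_mul]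
    refine Finset.sum_congr rfl fun j _ => ?_
    rw [Finset.prod_mul_distrib]
  simp_rw [e1]
  rw [integral_finsetSum J (fun j _ => Integrable.fintype_prod (fun w => hint j w))]
  refine Finset.sum_congr rfl fun j _ => ?_
  rw [integral_fintype_prod_eq_prod
    (f := fun w (y : GL (Fin 2) ℂ) => F w (y⁻¹ * (g w * z w ^ j) * y) * ((β w y : ℝ) : ℂ))]
  rfl

end Fermat.Agent.LT.T7.H194

end
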