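import Mathlib
import Fermat.Agent.LT.T7.H194.Orb.SuppTop
import Fermat.Agent.LT.T7.H194.Orb.IntegAbs

/-!
# Row LT, tower T7, stations C2.7 / Q2.7, leaves `LocEqSplitC340`, `LocEqArchC340`,
`ArchIntblUpC340` and their mirrors: ASSET, CONVERGENCE OF THE ORBITAL INTEGRAL of a regular
element of `GL₂(k)`, in the form of the hypothesis of the Fubini theorems for the split integral
(helper194)

OFF-MAIN.  Mathlib only (with `Orb/CycAlg`, `Orb/SuppTop`, `Orb/IntegAbs`).  No hole, nothing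
assumed.

`k` a Hausdorff topological field with `GL₂(k)` locally compact and second countable (`ℂ`, `ℝ`,
the completions `K_v`), `γ ∈ GL₂(k)` with discriminant `≠ 0`, `z` central, `T` a CLOSED
subgroup which contains the centraliser of `γ`, `μ` a Haar measure of `GL₂(k)`, `μT` a Haar
measure of `T`, `β ≥ 0` measurable with `∫_T β(t x) dμT(t) = 1` for all `x`:

    integrable_indicator_conj194 : for every compact `K`
        `a ↦ 1_K(a⁻¹ (γ z) a) β(a)` is integrable          (real valued)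

This is VERBATIM the hypothesis `hint` of `H555.splitInt340_eq555` (helper555, `ChainFubini.lean`)
for `P = γ z`, and gives the hypothesis `hfin` of `H855.integrable_cyc855` (helper855).
-/

set_option autoImplicit false
set_option linter.unusedSectionVars false
set_option linter.unusedVariables false
set_option linter.style.haveILetI false

open MeasureTheory

noncomputable section

namespace Fermat.Agent.LT.T7.H194

section Generic

variable {k : Type*} [Field k] [TopologicalSpace k] [IsTopologicalDivisionRing k] [T2Space k]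
  [SecondCountableTopology (GL (Fin 2) k)] [LocallyCompactSpace (GL (Fin 2) k)]

/-- **Convergence of the orbital integral of a regular element (complex valued form).** -/
theorem integrable_bdd_conj194 (γ : GL (Fin 2) k)
    (hγ : (γ : Matrix (Fin 2) (Fin 2) k).trace ^ 2 - 4 * (γ : Matrix (Fin 2) (Fin 2) k).det ≠ 0)
    (z : GL (Fin 2) k) (hz : ∀ x : GL (Fin 2) k, z * x = x * z)
    (T : Subgroup (GL (Fin 2) k)) (hT : ∀ t : GL (Fin 2) k, t⁻¹ * γ * t = γ → t ∈ T)
    (hTc : IsClosed (T : Set (GL (Fin 2) k)))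
    (μ : @Measure (GL (Fin 2) k) (borel _)) (hμ : @Measure.IsHaarMeasure _ _ _ (borel _) μ)
    (μT : @Measure T (borel _)) (hμT : @Measure.IsHaarMeasure _ _ _ (borel _) μT)
    (β : GL (Fin 2) k → ℝ) (hβm : @Measurable _ _ (borel _) _ β) (hβ0 : ∀ x, 0 ≤ β x)
    (hβ1 : ∀ x : GL (Fin 2) k,
      @integral _ _ _ _ (borel _) μT (fun t : T => β ((t : GL (Fin 2) k) * x)) = 1)
    (Ψ : GL (Fin 2) k → ℂ) (hΨm : @Measurable _ _ (borel _) _ Ψ) (M : ℝ)
    (hΨb : ∀ y, ‖Ψ y‖ ≤ M) (K : Set (GL (Fin 2) k)) (hK : IsCompact K)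
    (hΨs : ∀ y, Ψ y ≠ 0 → y ∈ K) :
    Integrable (fun a : GL (Fin 2) k => Ψ (a⁻¹ * (γ * z) * a) * ((β a : ℝ) : ℂ)) μ := by
  letI : MeasurableSpace (GL (Fin 2) k) := borel _
  haveI : BorelSpace (GL (Fin 2) k) := ⟨rfl⟩
  letI : MeasurableSpace T := borel _
  haveI : BorelSpace T := ⟨rfl⟩
  haveI : μ.IsHaarMeasure := hμ
  haveI : μT.IsHaarMeasure := hμT
  haveI : SigmaCompactSpace T := hTc.sigmaCompactSpace
  have hKc : IsCompact ((fun h : GL (Fin 2) k => h * z⁻¹) '' K) :=
    hK.image (continuous_id.mul continuous_const)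
  obtain ⟨C, hC, hsupp⟩ := exists_compact_conj194 γ hγ hKc
  have hcm : Measurable (fun y : GL (Fin 2) k => y⁻¹ * (γ * z) * y) :=
    ((continuous_inv.mul continuous_const).mul continuous_id).measurable
  refine integrable_mul_cut194 T μ μT hβm hβ0 hβ1 hC (Ψ := fun y => Ψ (y⁻¹ * (γ * z) * y))
    (hΨm.comp hcm) (M := M) (fun y => hΨb _) ?_
  intro y hy
  have h1 : y⁻¹ * (γ * z) * y ∈ K := hΨs _ hy
  have h2 : y⁻¹ * γ * y ∈ (fun h : GL (Fin 2) k => h * z⁻¹) '' K := by
    refine ⟨y⁻¹ * (γ * z) * y, h1, ?_⟩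
    show y⁻¹ * (γ * z) * y * z⁻¹ = y⁻¹ * γ * y
    have e : y⁻¹ * (γ * z) * y = y⁻¹ * γ * y * z := by
      calc y⁻¹ * (γ * z) * y = y⁻¹ * γ * (z * y) := by simp only [mul_assoc]
        _ = y⁻¹ * γ * (y * z) := by rw [hz y]
        _ = y⁻¹ * γ * y * z := by simp only [mul_assoc]
    rw [e, mul_inv_cancel_right]
  obtain ⟨t, ht, c, hc, hyc⟩ := hsupp y h2
  exact ⟨t, hT t ht, c, hc, hyc⟩

/-- **Convergence of the orbital integral of a regular element**: the hypothesis of the Fubini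
theorems for the split integral. -/
theorem integrable_indicator_conj194 (γ : GL (Fin 2) k)
    (hγ : (γ : Matrix (Fin 2) (Fin 2) k).trace ^ 2 - 4 * (γ : Matrix (Fin 2) (Fin 2) k).det ≠ 0)
    (z : GL (Fin 2) k) (hz : ∀ x : GL (Fin 2) k, z * x = x * z)
    (T : Subgroup (GL (Fin 2) k)) (hT : ∀ t : GL (Fin 2) k, t⁻¹ * γ * t = γ → t ∈ T)
    (hTc : IsClosed (T : Set (GL (Fin 2) k)))
    (μ : @Measure (GL (Fin 2) k) (borel _)) (hμ : @Measure.IsHaarMeasure _ _ _ (borel _) μ)
    (μT : @Measure T (borel _)) (hμT : @Measure.IsHaarMeasure _ _ _ (borel _) μT)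
    (β : GL (Fin 2) k → ℝ) (hβm : @Measurable _ _ (borel _) _ β) (hβ0 : ∀ x, 0 ≤ β x)
    (hβ1 : ∀ x : GL (Fin 2) k,
      @integral _ _ _ _ (borel _) μT (fun t : T => β ((t : GL (Fin 2) k) * x)) = 1)
    (K : Set (GL (Fin 2) k)) (hK : IsCompact K) :
    Integrable (fun a : GL (Fin 2) k =>
      K.indicator (fun _ => (1 : ℝ)) (a⁻¹ * (γ * z) * a) * β a) μ := by
  letI : MeasurableSpace (GL (Fin 2) k) := borel _
  haveI : BorelSpace (GL (Fin 2) k) := ⟨rfl⟩
  have hKm : MeasurableSet K := hK.isClosed.measurableSet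
  have hΨm : Measurable (fun y : GL (Fin 2) k => ((K.indicator (fun _ => (1 : ℝ)) y : ℝ) : ℂ)) :=
    Complex.measurable_ofReal.comp (measurable_const.indicator hKm)
  have hΨb : ∀ y : GL (Fin 2) k, ‖((K.indicator (fun _ => (1 : ℝ)) y : ℝ) : ℂ)‖ ≤ 1 := by
    intro y
    rw [Complex.norm_real]
    by_cases hy : y ∈ K
    · rw [Set.indicator_of_mem hy]
      simp
    · rw [Set.indicator_of_notMem hy]
      simp
  have hΨs : ∀ y : GL (Fin 2) k, ((K.indicator (fun _ => (1 : ℝ)) y : ℝ) : ℂ) ≠ 0 → y ∈ K := by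
    intro y hy
    by_contra hn
    apply hy
    rw [Set.indicator_of_notMem hn]
    simp
  have h := integrable_bdd_conj194 γ hγ z hz T hT hTc μ hμ μT hμT β hβm hβ0 hβ1
    (fun y => ((K.indicator (fun _ => (1 : ℝ)) y : ℝ) : ℂ)) hΨm 1 hΨb K hK hΨs
  have h' := h.re
  refine h'.congr (Filter.Eventually.of_forall fun a => ?_)
  show (((K.indicator (fun _ => (1 : ℝ)) (a⁻¹ * (γ * z) * a) : ℝ) : ℂ) * ((β a : ℝ) : ℂ)).re = _
  rw [← Complex.ofReal_mul, Complex.ofReal_re]

end Generic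

end Fermat.Agent.LT.T7.H194

end
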