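import Mathlib
import Fermat.Agent.LT.T7.H305.MatchCut
import Fermat.Agent.LT.T7.H194.Orb.IndInt

/-!
# Row LT, tower T7, stations C2.7 / Q2.7: ASSET, CONVERGENCE OF THE ORBITAL INTEGRAL in the
vocabulary of `MatchCut.lean` (helper194)

OFF-MAIN.  On `LT/T7/H305/MatchCut.lean` (helper305, sha256 0f302b81, byte-identical copy;
vocabulary `cent305`, `IsCut305`, `IsLocCut305` only) and `Orb/IndInt.lean` (Mathlib only).
No hole, nothing assumed.

For every compact `K`: `a ↦ 1_K(a⁻¹ (γ z) a) β(a)` is integrable (`γ` regular, `z` central):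

* `hint_cutC194` : `GL₂(ℂ)`, `IsCut305 γ μT β`;
* `hint_cutR194` : `GL₂(ℝ)`, `IsCut305 γ μT β`;
* `hint_locCut194` : `GL₂(k)`, `k` a valued field with `GL₂(k)` locally compact and second
  countable (the completions `K_v`), `IsLocCut305 (RingEquiv.refl k) γ μT β`.

VERBATIM the hypothesis `hint` of `H555.splitInt340_eq555` (helper555) for `P = γ z`.
-/

set_option autoImplicit false
set_option linter.unusedSectionVars false
set_option linter.unusedVariables false
set_option linter.style.haveILetI false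

open MeasureTheory

noncomputable section

namespace Fermat.Agent.LT.T7.H194

open Fermat.Agent.LT Fermat.Agent.LT.T7 Fermat.Agent.LT.T7.H305

theorem isClosed_cent_gen194 {H : Type} [Group H] [TopologicalSpace H] [IsTopologicalGroup H]
    [T2Space H] (γ : H) : IsClosed ((cent305 γ : Subgroup H) : Set H) := by
  have hc : Continuous (fun x : H => x⁻¹ * γ * x) :=
    (continuous_inv.mul continuous_const).mul continuous_id
  exact isClosed_eq hc continuous_const

/-- `GL₂(ℂ)`. -/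
theorem hint_cutC194 (γ : GL (Fin 2) ℂ) (hγ : T6.IsReg γ)
    (z : GL (Fin 2) ℂ) (hz : ∀ x : GL (Fin 2) ℂ, z * x = x * z)
    (μ : @Measure (GL (Fin 2) ℂ) (borel _)) (hμ : @Measure.IsHaarMeasure _ _ _ (borel _) μ)
    (μT : @Measure (cent305 γ) (borel _)) (hμT : @Measure.IsHaarMeasure _ _ _ (borel _) μT)
    (β : GL (Fin 2) ℂ → ℝ) (hβ : IsCut305 γ μT β) (K : Set (GL (Fin 2) ℂ)) (hK : IsCompact K) :
    Integrable (fun a : GL (Fin 2) ℂ =>
      K.indicator (fun _ => (1 : ℝ)) (a⁻¹ * (γ * z) * a) * β a) μ := by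
  haveI : SecondCountableTopology (GL (Fin 2) ℂ) := by
    have : SecondCountableTopology (Matrix (Fin 2) (Fin 2) ℂ) :=
      inferInstanceAs (SecondCountableTopology (Fin 2 → Fin 2 → ℂ))
    have : SecondCountableTopology (Matrix (Fin 2) (Fin 2) ℂ)ᵐᵒᵖ :=
      MulOpposite.opHomeomorph.symm.secondCountableTopology
    exact (Units.isEmbedding_embedProduct (M := Matrix (Fin 2) (Fin 2) ℂ)).secondCountableTopology
  haveI : LocallyCompactSpace (GL (Fin 2) ℂ) := by
    have : LocallyCompactSpace (Matrix (Fin 2) (Fin 2) ℂ) :=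
      inferInstanceAs (LocallyCompactSpace (Fin 2 → Fin 2 → ℂ))
    exact (Units.isClosedEmbedding_embedProduct
      (α := Matrix (Fin 2) (Fin 2) ℂ)).locallyCompactSpace
  obtain ⟨hβc, hβ0, hβ1⟩ := hβ
  have hβm : @Measurable _ _ (borel _) _ β := by
    letI : MeasurableSpace (GL (Fin 2) ℂ) := borel _
    haveI : BorelSpace (GL (Fin 2) ℂ) := ⟨rfl⟩
    exact hβc.measurable
  exact integrable_indicator_conj194 γ (isUnit_iff_ne_zero.1 hγ) z hz (cent305 γ)
    (fun t ht => ht) (isClosed_cent_gen194 γ) μ hμ μT hμT β hβm hβ0 hβ1 K hK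

/-- `GL₂(ℝ)`. -/
theorem hint_cutR194 (γ : GL (Fin 2) ℝ) (hγ : T6.IsReg γ)
    (z : GL (Fin 2) ℝ) (hz : ∀ x : GL (Fin 2) ℝ, z * x = x * z)
    (μ : @Measure (GL (Fin 2) ℝ) (borel _)) (hμ : @Measure.IsHaarMeasure _ _ _ (borel _) μ)
    (μT : @Measure (cent305 γ) (borel _)) (hμT : @Measure.IsHaarMeasure _ _ _ (borel _) μT)
    (β : GL (Fin 2) ℝ → ℝ) (hβ : IsCut305 γ μT β) (K : Set (GL (Fin 2) ℝ)) (hK : IsCompact K) :
    Integrable (fun a : GL (Fin 2) ℝ =>
      K.indicator (fun _ => (1 : ℝ)) (a⁻¹ * (γ * z) * a) * β a) μ := by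
  haveI : SecondCountableTopology (GL (Fin 2) ℝ) := by
    have : SecondCountableTopology (Matrix (Fin 2) (Fin 2) ℝ) :=
      inferInstanceAs (SecondCountableTopology (Fin 2 → Fin 2 → ℝ))
    have : SecondCountableTopology (Matrix (Fin 2) (Fin 2) ℝ)ᵐᵒᵖ :=
      MulOpposite.opHomeomorph.symm.secondCountableTopology
    exact (Units.isEmbedding_embedProduct (M := Matrix (Fin 2) (Fin 2) ℝ)).secondCountableTopology
  haveI : LocallyCompactSpace (GL (Fin 2) ℝ) := by
    have : LocallyCompactSpace (Matrix (Fin 2) (Fin 2) ℝ) :=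
      inferInstanceAs (LocallyCompactSpace (Fin 2 → Fin 2 → ℝ))
    exact (Units.isClosedEmbedding_embedProduct
      (α := Matrix (Fin 2) (Fin 2) ℝ)).locallyCompactSpace
  obtain ⟨hβc, hβ0, hβ1⟩ := hβ
  have hβm : @Measurable _ _ (borel _) _ β := by
    letI : MeasurableSpace (GL (Fin 2) ℝ) := borel _
    haveI : BorelSpace (GL (Fin 2) ℝ) := ⟨rfl⟩
    exact hβc.measurable
  exact integrable_indicator_conj194 γ (isUnit_iff_ne_zero.1 hγ) z hz (cent305 γ)
    (fun t ht => ht) (isClosed_cent_gen194 γ) μ hμ μT hμT β hβm hβ0 hβ1 K hK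

/-- `GL₂(k)`, `k` a valued field with `GL₂(k)` locally compact and second countable. -/
theorem hint_locCut194 {k : Type} [Field k] [Valued k T6.Γ₀]
    [SecondCountableTopology (GL (Fin 2) k)] [LocallyCompactSpace (GL (Fin 2) k)]
    (γ : GL (Fin 2) k) (hγ : T6.IsReg γ)
    (z : GL (Fin 2) k) (hz : ∀ x : GL (Fin 2) k, z * x = x * z)
    (μ : @Measure (GL (Fin 2) k) (borel _)) (hμ : @Measure.IsHaarMeasure _ _ _ (borel _) μ)
    (μT : @Measure (T6.twCentSub (T6.glAut (RingEquiv.refl k)) γ) (borel _))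
    (hμT : @Measure.IsHaarMeasure _ _ _ (borel _) μT)
    (β : GL (Fin 2) k → ℝ) (hβ : IsLocCut305 (RingEquiv.refl k) γ μT β)
    (K : Set (GL (Fin 2) k)) (hK : IsCompact K) :
    Integrable (fun a : GL (Fin 2) k =>
      K.indicator (fun _ => (1 : ℝ)) (a⁻¹ * (γ * z) * a) * β a) μ := by
  have hid : ∀ t : GL (Fin 2) k, T6.glAut (RingEquiv.refl k) t = t := by
    intro t
    apply Units.ext
    ext a b
    rfl
  have hTc : IsClosed ((T6.twCentSub (T6.glAut (RingEquiv.refl k)) γ : Subgroup (GL (Fin 2) k)) :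
      Set (GL (Fin 2) k)) := by
    have hc : Continuous (fun x : GL (Fin 2) k => x⁻¹ * γ * x) :=
      (continuous_inv.mul continuous_const).mul continuous_id
    have e : ((T6.twCentSub (T6.glAut (RingEquiv.refl k)) γ : Subgroup (GL (Fin 2) k)) :
        Set (GL (Fin 2) k)) = {x | x⁻¹ * γ * x = γ} := by
      ext x
      show x⁻¹ * γ * T6.glAut (RingEquiv.refl k) x = γ ↔ x⁻¹ * γ * x = γ
      rw [hid]
    rw [e]
    exact isClosed_eq hc continuous_const
  obtain ⟨hβc, hβ0, hβ1⟩ := hβ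
  have hβm : @Measurable _ _ (borel _) _ β := by
    letI : MeasurableSpace (GL (Fin 2) k) := borel _
    haveI : BorelSpace (GL (Fin 2) k) := ⟨rfl⟩
    exact hβc.measurable
  refine integrable_indicator_conj194 γ (isUnit_iff_ne_zero.1 hγ) z hz
    (T6.twCentSub (T6.glAut (RingEquiv.refl k)) γ) ?_ hTc μ hμ μT hμT β hβm hβ0 hβ1 K hK
  intro t ht
  show t⁻¹ * γ * T6.glAut (RingEquiv.refl k) t = γ
  rw [hid]
  exact ht

end Fermat.Agent.LT.T7.H194

end
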